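import Fermat.Agent.P2.Dihedral.Core

/-!
# P2, block 5a: the cocycle measuring non-dihedrality
-/

set_option autoImplicit false

noncomputable section

namespace Fermat.Agent.P2.Dihedral

variable {A : Type*} [CommRing A] {G : Type*} [Group G]

local notation "Mat" => Matrix (Fin 2) (Fin 2)

section Functional

/-- Existence of a functional on `A` which is `r`-linear on the ideal `𝔟` and does not kill `𝔟`. -/
theorem exists_functional (h2 : (2 : A) = 0) (r : A →+* ZMod 2)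
    (hnil : ∃ n : ℕ, RingHom.ker r ^ n = ⊥) (X : Set A) (hX : ∃ x ∈ X, x ≠ 0) :
    ∃ φ : A →+ ZMod 2, (∀ a : A, ∀ b ∈ Ideal.span X, φ (a * b) = r a * φ b) ∧
      ∃ x ∈ X, φ x ≠ 0 := by
  set 𝔟 := Ideal.span X with h𝔟
  have hex : ∃ x ∈ X, x ∉ RingHom.ker r * 𝔟 := by
    by_contra hcon
    push Not at hcon
    have h1 : 𝔟 ≤ RingHom.ker r * 𝔟 := Ideal.span_le.mpr hcon
    obtain ⟨n, hn⟩ := hnil
    have h3 : ∀ k : ℕ, 𝔟 ≤ RingHom.ker r ^ k * 𝔟 := by
      intro k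
      induction k with
      | zero => rw [pow_zero, Ideal.one_eq_top, Ideal.top_mul]
      | succ k ih =>
        calc 𝔟 ≤ RingHom.ker r * 𝔟 := h1
          _ ≤ RingHom.ker r * (RingHom.ker r ^ k * 𝔟) := Ideal.mul_mono_right ih
          _ = RingHom.ker r ^ (k + 1) * 𝔟 := by rw [← mul_assoc, pow_succ']
    have h4 := h3 n
    rw [hn, Ideal.bot_mul] at h4
    obtain ⟨x, hx, hx0⟩ := hX
    exact hx0 ((Submodule.mem_bot A).mp (h4 (Ideal.subset_span hx)))
  obtain ⟨x, hx, hxn⟩ := hex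
  let _ : Module (ZMod 2) A := AddCommGroup.zmodModule (fun a => by
    rw [two_nsmul, ← two_mul, h2, zero_mul])
  let U : Submodule (ZMod 2) A := AddSubgroup.toZModSubmodule 2 (RingHom.ker r * 𝔟).toAddSubgroup
  have hxU : x ∉ U := hxn
  obtain ⟨φ, hφx, hφU⟩ := Submodule.exists_le_ker_of_notMem hxU
  refine ⟨φ.toAddMonoidHom, fun a b hb => ?_, x, hx, hφx⟩
  show φ (a * b) = r a * φ b
  have key : ∀ c ∈ RingHom.ker r, φ (c * b) = 0 := fun c hc =>
    LinearMap.mem_ker.mp (hφU (show c * b ∈ RingHom.ker r * 𝔟 from Ideal.mul_mem_mul hc hb))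
  have h01 : ∀ z : ZMod 2, z = 0 ∨ z = 1 := by decide
  rcases h01 (r a) with h | h
  · rw [h, zero_mul]
    exact key a (RingHom.mem_ker.mpr h)
  · rw [h, one_mul]
    have h5 : a - 1 ∈ RingHom.ker r := by rw [RingHom.mem_ker, map_sub, h, map_one, sub_self]
    have h6 : a * b = (a - 1) * b + b := by ring
    rw [h6, map_add, key _ h5, zero_add]

variable {r : A →+* ZMod 2} {𝔟 : Ideal A} {φ : A →+ ZMod 2}

theorem map_mul_left' (hφ : ∀ a : A, ∀ b ∈ 𝔟, φ (a * b) = r a * φ b) (X Y : Mat A)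
    (hY : ∀ i j, Y i j ∈ 𝔟) : (X * Y).map φ = X.map r * Y.map φ := by
  ext i j
  rw [Matrix.map_apply, Matrix.mul_apply, Matrix.mul_apply, map_sum]
  exact Finset.sum_congr rfl fun k _ => hφ _ _ (hY k j)

theorem map_mul_right' (hφ : ∀ a : A, ∀ b ∈ 𝔟, φ (a * b) = r a * φ b) (X Y : Mat A)
    (hY : ∀ i j, Y i j ∈ 𝔟) : (Y * X).map φ = Y.map φ * X.map r := by
  ext i j
  rw [Matrix.map_apply, Matrix.mul_apply, Matrix.mul_apply, map_sum]
  refine Finset.sum_congr rfl fun k _ => ?_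
  rw [mul_comm, hφ _ _ (hY i k), mul_comm]; rfl

end Functional

/-- The data: a representation with trivial determinant over a ring of characteristic `2`, with
nilpotent kernel of reduction, and an element `s₀` with `ρ(s₀)² = ρ(s₀) + 1`. -/
structure Datum (ρ : G →* GL (Fin 2) A) (r : A →+* ZMod 2) (s₀ : G) : Prop where
  h2 : (2 : A) = 0
  nil : ∃ n : ℕ, RingHom.ker r ^ n = ⊥
  det : ∀ g, (ρ g : Mat A).det = 1
  s : (ρ s₀ : Mat A) * ρ s₀ = ρ s₀ + 1

/-- residual matrix -/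
def res (ρ : G →* GL (Fin 2) A) (r : A →+* ZMod 2) (g : G) : Mat (ZMod 2) :=
  (ρ g : Mat A).map r

variable {ρ : G →* GL (Fin 2) A} {r : A →+* ZMod 2} {s₀ : G}

theorem res_mul (g h : G) : res ρ r (g * h) = res ρ r g * res ρ r h := by
  unfold res
  rw [map_mul, Units.val_mul, Matrix.map_mul]

theorem res_one : res ρ r (1 : G) = 1 := by
  unfold res
  rw [map_one, Units.val_one, Matrix.map_one _ (map_zero r) (map_one r)]

theorem res_mul_inv (g : G) : res ρ r g * res ρ r g⁻¹ = 1 := by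
  rw [← res_mul, mul_inv_cancel, res_one]

theorem res_inv_mul (g : G) : res ρ r g⁻¹ * res ρ r g = 1 := by
  rw [← res_mul, inv_mul_cancel, res_one]

/-- the index two subgroup (as a predicate) -/
def InH (ρ : G →* GL (Fin 2) A) (r : A →+* ZMod 2) (s₀ g : G) : Prop :=
  IsC (res ρ r s₀) (res ρ r g)

open Classical in
/-- the right component -/
def RR (ρ : G →* GL (Fin 2) A) (r : A →+* ZMod 2) (s₀ g : G) : Mat A :=
  if InH ρ r s₀ g then pr (ρ s₀ : Mat A) (ρ g) else cp (ρ s₀ : Mat A) (ρ g)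

open Classical in
/-- the wrong component -/
def WW (ρ : G →* GL (Fin 2) A) (r : A →+* ZMod 2) (s₀ g : G) : Mat A :=
  if InH ρ r s₀ g then cp (ρ s₀ : Mat A) (ρ g) else pr (ρ s₀ : Mat A) (ρ g)

namespace Datum

variable (D : Datum ρ r s₀)

include D in
theorem res_s : res ρ r s₀ * res ρ r s₀ = res ρ r s₀ + 1 := by
  have h := congrArg (fun X : Mat A => X.map r) D.s
  simp only [Matrix.map_mul, Matrix.map_add _ (map_add r),
    Matrix.map_one _ (map_zero r) (map_one r)] at h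
  exact h

include D in
theorem res_det (g : G) : (res ρ r g).det = 1 := by
  unfold res
  have h := RingHom.map_det r (ρ g : Mat A)
  rw [D.det, map_one] at h
  exact h.symm

include D in
theorem dich (g : G) : IsC (res ρ r s₀) (res ρ r g) ∨ IsC' (res ρ r s₀) (res ρ r g) :=
  f2_dichotomy _ _ D.res_s (D.res_det g)

include D in
theorem isC'_of_not {g : G} (h : ¬ InH ρ r s₀ g) : IsC' (res ρ r s₀) (res ρ r g) :=
  (D.dich g).resolve_left h

include D in
theorem not_inH_of_isC' {g : G} (h : IsC' (res ρ r s₀) (res ρ r g)) : ¬ InH ρ r s₀ g := fun h' => by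
  have h0 := f2_not_both _ _ D.res_s h' h
  have h1 := D.res_det g
  rw [h0, Matrix.det_zero] at h1
  exact absurd h1 (by decide)

include D in
theorem inH_mul_iff (g h : G) : InH ρ r s₀ (g * h) ↔ (InH ρ r s₀ g ↔ InH ρ r s₀ h) := by
  by_cases hg : InH ρ r s₀ g <;> by_cases hh : InH ρ r s₀ h
  · simp only [hg, hh, iff_true]
    show IsC _ _
    rw [res_mul]
    exact IsC.mul hg hh
  · simp only [hg, hh, iff_false, not_true]
    apply D.not_inH_of_isC'
    rw [res_mul]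
    exact IsC'.mul_left hg (D.isC'_of_not hh)
  · simp only [hg, hh, iff_true, iff_false]
    apply D.not_inH_of_isC'
    rw [res_mul]
    exact IsC'.mul_right (D.isC'_of_not hg) hh
  · simp only [hg, hh, iff_true]
    show IsC _ _
    rw [res_mul]
    exact IsC'.mul' (by decide) (D.isC'_of_not hg) (D.isC'_of_not hh)

include D in
theorem RR_add_WW (g : G) : RR ρ r s₀ g + WW ρ r s₀ g = ρ g := by
  unfold RR WW
  split_ifs
  · exact pr_add_cp D.h2 _
  · rw [add_comm]; exact pr_add_cp D.h2 _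

include D in
theorem isC_RR {g : G} (h : InH ρ r s₀ g) : IsC (ρ s₀ : Mat A) (RR ρ r s₀ g) := by
  rw [RR, if_pos h]; exact isC_pr D.h2 D.s _

include D in
theorem isC'_WW {g : G} (h : InH ρ r s₀ g) : IsC' (ρ s₀ : Mat A) (WW ρ r s₀ g) := by
  rw [WW, if_pos h]; exact isC'_cp D.h2 D.s _

include D in
theorem isC'_RR {g : G} (h : ¬ InH ρ r s₀ g) : IsC' (ρ s₀ : Mat A) (RR ρ r s₀ g) := by
  rw [RR, if_neg h]; exact isC'_cp D.h2 D.s _

include D in
theorem isC_WW {g : G} (h : ¬ InH ρ r s₀ g) : IsC (ρ s₀ : Mat A) (WW ρ r s₀ g) := by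
  rw [WW, if_neg h]; exact isC_pr D.h2 D.s _

include D in
theorem WW_mul (g h : G) : WW ρ r s₀ (g * h) =
    RR ρ r s₀ g * WW ρ r s₀ h + WW ρ r s₀ g * RR ρ r s₀ h := by
  have hρ : (ρ (g * h) : Mat A) =
      (RR ρ r s₀ g * RR ρ r s₀ h + WW ρ r s₀ g * WW ρ r s₀ h) +
      (RR ρ r s₀ g * WW ρ r s₀ h + WW ρ r s₀ g * RR ρ r s₀ h) := by
    rw [map_mul, Units.val_mul, ← D.RR_add_WW g, ← D.RR_add_WW h]
    noncomm_ring
  have hS := D.h2
  by_cases hg : InH ρ r s₀ g <;> by_cases hh : InH ρ r s₀ h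
  · have hgh : InH ρ r s₀ (g * h) := (D.inH_mul_iff g h).mpr (by simp [hg, hh])
    rw [WW, if_pos hgh, hρ]
    exact cp_of_add hS
      (((D.isC_RR hg).mul (D.isC_RR hh)).add (IsC'.mul' hS (D.isC'_WW hg) (D.isC'_WW hh)))
      ((IsC'.mul_left (D.isC_RR hg) (D.isC'_WW hh)).add
        (IsC'.mul_right (D.isC'_WW hg) (D.isC_RR hh)))
  · have hgh : ¬ InH ρ r s₀ (g * h) := fun h' => by
      have := (D.inH_mul_iff g h).mp h'; simp [hg, hh] at this
    rw [WW, if_neg hgh, hρ, add_comm]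
    exact pr_of_add hS
      (((D.isC_RR hg).mul (D.isC_WW hh)).add (IsC'.mul' hS (D.isC'_WW hg) (D.isC'_RR hh)))
      ((IsC'.mul_left (D.isC_RR hg) (D.isC'_RR hh)).add
        (IsC'.mul_right (D.isC'_WW hg) (D.isC_WW hh)))
  · have hgh : ¬ InH ρ r s₀ (g * h) := fun h' => by
      have := (D.inH_mul_iff g h).mp h'; simp [hg, hh] at this
    rw [WW, if_neg hgh, hρ, add_comm]
    exact pr_of_add hS
      ((IsC'.mul' hS (D.isC'_RR hg) (D.isC'_WW hh)).add ((D.isC_WW hg).mul (D.isC_RR hh)))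
      ((IsC'.mul_right (D.isC'_RR hg) (D.isC_RR hh)).add
        (IsC'.mul_left (D.isC_WW hg) (D.isC'_WW hh)))
  · have hgh : InH ρ r s₀ (g * h) := (D.inH_mul_iff g h).mpr (by simp [hg, hh])
    rw [WW, if_pos hgh, hρ]
    exact cp_of_add hS
      ((IsC'.mul' hS (D.isC'_RR hg) (D.isC'_RR hh)).add ((D.isC_WW hg).mul (D.isC_WW hh)))
      ((IsC'.mul_right (D.isC'_RR hg) (D.isC_WW hh)).add
        (IsC'.mul_left (D.isC_WW hg) (D.isC'_RR hh)))

theorem map_cp (s X : Mat A) : (cp s X).map r = cp (s.map r) (X.map r) := by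
  unfold cp
  rw [Matrix.map_add _ (map_add r), Matrix.map_mul, Matrix.map_mul]

theorem map_pr (s X : Mat A) : (pr s X).map r = pr (s.map r) (X.map r) := by
  unfold pr
  rw [Matrix.map_add _ (map_add r), Matrix.map_add _ (map_add r), Matrix.map_mul, Matrix.map_mul]

include D in
theorem map_WW (g : G) : (WW ρ r s₀ g).map r = 0 := by
  unfold WW
  split_ifs with h
  · rw [map_cp]
    exact IsC.cp_eq (by decide) h
  · rw [map_pr]
    exact IsC'.pr_eq (by decide) (D.isC'_of_not h)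

include D in
theorem map_RR (g : G) : (RR ρ r s₀ g).map r = res ρ r g := by
  have h := congrArg (fun X : Mat A => X.map r) (D.RR_add_WW g)
  simp only [Matrix.map_add _ (map_add r), D.map_WW, add_zero] at h
  exact h

end Datum

/-- the ideal generated by the entries of the wrong components -/
def wset (ρ : G →* GL (Fin 2) A) (r : A →+* ZMod 2) (s₀ : G) : Set A :=
  {x | ∃ g i j, x = WW ρ r s₀ g i j}

/-- the cocycle with values in matrices -/
def xi (ρ : G →* GL (Fin 2) A) (r : A →+* ZMod 2) (s₀ : G) (φ : A →+ ZMod 2) (g : G) :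
    Mat (ZMod 2) := (WW ρ r s₀ g).map φ * res ρ r g⁻¹

/-- the cocycle with values in `𝔽₂²` -/
def vv (ρ : G →* GL (Fin 2) A) (r : A →+* ZMod 2) (s₀ : G) (φ : A →+ ZMod 2) (g : G) :
    Fin 2 → ZMod 2 := ![xi ρ r s₀ φ g 0 1, xi ρ r s₀ φ g 1 0]

theorem WW_mem (g : G) (i j : Fin 2) : WW ρ r s₀ g i j ∈ Ideal.span (wset ρ r s₀) :=
  Ideal.subset_span ⟨g, i, j, rfl⟩

namespace Datum

variable (D : Datum ρ r s₀) {φ : A →+ ZMod 2}
  (hφ : ∀ a : A, ∀ b ∈ Ideal.span (wset ρ r s₀), φ (a * b) = r a * φ b)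

theorem xi_mul_res (g : G) : xi ρ r s₀ φ g * res ρ r g = (WW ρ r s₀ g).map φ := by
  unfold xi
  rw [mul_assoc, res_inv_mul, mul_one]

include D hφ in
theorem xi_mul (g h : G) : xi ρ r s₀ φ (g * h) =
    xi ρ r s₀ φ g + res ρ r g * xi ρ r s₀ φ h * res ρ r g⁻¹ := by
  have e1 : xi ρ r s₀ φ (g * h) = (WW ρ r s₀ (g * h)).map φ * res ρ r (g * h)⁻¹ := rfl
  rw [e1, D.WW_mul, Matrix.map_add _ (map_add φ), map_mul_left' hφ _ _ (WW_mem h),
    map_mul_right' hφ _ _ (WW_mem g), D.map_RR, D.map_RR, mul_inv_rev, res_mul]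
  unfold xi
  have e2 : (res ρ r g * (WW ρ r s₀ h).map φ + (WW ρ r s₀ g).map φ * res ρ r h) *
      (res ρ r h⁻¹ * res ρ r g⁻¹) =
      (WW ρ r s₀ g).map φ * (res ρ r h * res ρ r h⁻¹) * res ρ r g⁻¹ +
      res ρ r g * ((WW ρ r s₀ h).map φ * res ρ r h⁻¹) * res ρ r g⁻¹ := by noncomm_ring
  rw [e2, res_mul_inv, mul_one]

include D in
theorem map_comm {X : Mat A} (hX : IsC (ρ s₀ : Mat A) X) (hφ' : ∀ a : A, ∀ i j,
    φ (a * X i j) = r a * φ (X i j)) : IsC (res ρ r s₀) (X.map φ) := by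
  unfold IsC at *
  have h := congrArg (fun X : Mat A => X.map φ) hX
  have e1 : (X * (ρ s₀ : Mat A)).map φ = X.map φ * res ρ r s₀ := by
    ext i j
    rw [Matrix.map_apply, Matrix.mul_apply, Matrix.mul_apply, map_sum]
    refine Finset.sum_congr rfl fun k _ => ?_
    rw [mul_comm, hφ', mul_comm]; rfl
  have e2 : ((ρ s₀ : Mat A) * X).map φ = res ρ r s₀ * X.map φ := by
    ext i j
    rw [Matrix.map_apply, Matrix.mul_apply, Matrix.mul_apply, map_sum]
    exact Finset.sum_congr rfl fun k _ => hφ' _ _ _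
  rw [← e1, ← e2, h]

include D in
theorem map_comm' {X : Mat A} (hX : IsC' (ρ s₀ : Mat A) X) (hφ' : ∀ a : A, ∀ i j,
    φ (a * X i j) = r a * φ (X i j)) : IsC' (res ρ r s₀) (X.map φ) := by
  unfold IsC' at *
  have h := congrArg (fun X : Mat A => X.map φ) hX
  have e1 : (X * (ρ s₀ : Mat A)).map φ = X.map φ * res ρ r s₀ := by
    ext i j
    rw [Matrix.map_apply, Matrix.mul_apply, Matrix.mul_apply, map_sum]
    refine Finset.sum_congr rfl fun k _ => ?_
    rw [mul_comm, hφ', mul_comm]; rfl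
  have e2 : ((ρ s₀ : Mat A) * X).map φ = res ρ r s₀ * X.map φ := by
    ext i j
    rw [Matrix.map_apply, Matrix.mul_apply, Matrix.mul_apply, map_sum]
    exact Finset.sum_congr rfl fun k _ => hφ' _ _ _
  rw [add_mul, one_mul, Matrix.map_add _ (map_add φ), e1, e2] at h
  rw [h, add_mul, one_mul]

theorem isC_res_inv {g : G} (h : InH ρ r s₀ g) : IsC (res ρ r s₀) (res ρ r g⁻¹) := by
  have h' : res ρ r g * res ρ r s₀ = res ρ r s₀ * res ρ r g := h
  show res ρ r g⁻¹ * res ρ r s₀ = res ρ r s₀ * res ρ r g⁻¹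
  calc res ρ r g⁻¹ * res ρ r s₀ = res ρ r g⁻¹ * (res ρ r s₀ * res ρ r g) * res ρ r g⁻¹ := by
        rw [mul_assoc, mul_assoc, res_mul_inv, mul_one]
    _ = (res ρ r g⁻¹ * res ρ r g) * res ρ r s₀ * res ρ r g⁻¹ := by rw [← h']; noncomm_ring
    _ = _ := by rw [res_inv_mul, one_mul]

include D in
theorem isC'_res_inv {g : G} (h : ¬ InH ρ r s₀ g) : IsC' (res ρ r s₀) (res ρ r g⁻¹) := by
  have h1 := f2_invol _ _ D.res_s (D.isC'_of_not h) (D.res_det g)
  have h3 : res ρ r g⁻¹ = res ρ r g := by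
    calc res ρ r g⁻¹ = res ρ r g⁻¹ * (res ρ r g * res ρ r g) := by rw [h1, mul_one]
      _ = res ρ r g := by rw [← mul_assoc, res_inv_mul, one_mul]
  rw [h3]
  exact D.isC'_of_not h

include D hφ in
theorem isC'_xi (g : G) : IsC' (res ρ r s₀) (xi ρ r s₀ φ g) := by
  unfold xi
  by_cases h : InH ρ r s₀ g
  · exact IsC'.mul_right (D.map_comm' (D.isC'_WW h) fun a i j => hφ a _ (WW_mem g i j))
      (isC_res_inv h)
  · exact IsC'.mul_left (D.map_comm (D.isC_WW h) fun a i j => hφ a _ (WW_mem g i j))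
      (D.isC'_res_inv h)

include D hφ in
theorem vv_mul (g h : G) : vv ρ r s₀ φ (g * h) =
    vv ρ r s₀ φ g + (res ρ r g).mulVec (vv ρ r s₀ φ h) := by
  unfold vv
  rw [D.xi_mul hφ, ← f2_equivar _ _ _ _ D.res_s (D.isC'_xi hφ h) (res_mul_inv g)]
  ext i
  fin_cases i <;> rfl

theorem InH_congr {g h : G} (hgh : ρ g = ρ h) : InH ρ r s₀ g ↔ InH ρ r s₀ h := by
  unfold InH res; rw [hgh]

theorem vv_congr {g h : G} (hgh : ρ g = ρ h) : vv ρ r s₀ φ g = vv ρ r s₀ φ h := by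
  have h1 : WW ρ r s₀ g = WW ρ r s₀ h := by
    unfold WW InH res; rw [hgh]
  have h3 : res ρ r g⁻¹ = res ρ r h⁻¹ := by
    unfold res; rw [map_inv, map_inv, hgh]
  unfold vv xi
  rw [h1, h3]

theorem vv_eq_zero {g : G} (hW : WW ρ r s₀ g = 0) : vv ρ r s₀ φ g = 0 := by
  unfold vv xi
  rw [hW, Matrix.map_zero _ (map_zero φ), zero_mul]
  ext i
  fin_cases i <;> rfl

/-- If the cocycle is a coboundary then it is zero. -/
theorem WW_eq_zero_of_cob (hcob : ∃ x : Fin 2 → ZMod 2, ∀ g, vv ρ r s₀ φ g =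
    (res ρ r g).mulVec x - x) (D : Datum ρ r s₀)
    (hφ : ∀ a : A, ∀ b ∈ Ideal.span (wset ρ r s₀), φ (a * b) = r a * φ b) (g : G) :
    (WW ρ r s₀ g).map φ = 0 := by
  obtain ⟨x, hx⟩ := hcob
  have h1 : InH ρ r s₀ s₀ := rfl
  have h3 : WW ρ r s₀ s₀ = 0 := by
    rw [WW, if_pos h1]
    exact IsC.cp_eq D.h2 rfl
  have h4 := hx s₀
  rw [vv_eq_zero h3] at h4
  have h5 : x = 0 := f2_fix _ x D.res_s (sub_eq_zero.mp h4.symm)
  have h6 : vv ρ r s₀ φ g = 0 := by rw [hx g, h5, Matrix.mulVec_zero, sub_zero]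
  have h7 : xi ρ r s₀ φ g = 0 := by
    refine f2_vec _ _ D.res_s (D.isC'_xi hφ g) ?_ ?_
    · exact congrFun h6 0
    · exact congrFun h6 1
  rw [← xi_mul_res, h7, zero_mul]

end Datum

end Fermat.Agent.P2.Dihedral
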