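import Mathlib

/-!
# P2, block 5a: the dihedral lemma in characteristic two (abstract part)

`A` is a commutative ring with `2 = 0` and a ring homomorphism `r : A → 𝔽₂` with nilpotent kernel,
`ρ : G → GL₂(A)`. We fix `s` in the image of `ρ` with `s² + s + 1 = 0` and decompose `M₂(A)` into
the part commuting with `s` and the part with `X s = s² X`.
-/

set_option autoImplicit false

noncomputable section

namespace Fermat.Agent.P2.Dihedral

variable {A : Type*} [CommRing A]

local notation "Mat" => Matrix (Fin 2) (Fin 2)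

/-- the projection to the part with `X s = s² X` (in characteristic two, `s² = s + 1`) -/
def cp (s X : Mat A) : Mat A := s * X + X * s

/-- the projection to the part commuting with `s` -/
def pr (s X : Mat A) : Mat A := X + (s * X + X * s)

theorem mat_add_self (h2 : (2 : A) = 0) (X : Mat A) : X + X = 0 := by
  ext i j
  rw [Matrix.add_apply, Matrix.zero_apply, ← two_mul, h2, zero_mul]

theorem mat_neg (h2 : (2 : A) = 0) (X : Mat A) : -X = X :=
  neg_eq_of_add_eq_zero_left (mat_add_self h2 X)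

theorem mat_sub (h2 : (2 : A) = 0) (X Y : Mat A) : X - Y = X + Y := by
  rw [sub_eq_add_neg, mat_neg h2]

theorem mat_cancel (h2 : (2 : A) = 0) {X Y Z : Mat A} (h : X = Y + (Z + Z)) : X = Y := by
  rw [h, mat_add_self h2, add_zero]

section Algebra

variable (h2 : (2 : A) = 0) {s : Mat A} (hs : s * s = s + 1)

include h2 in
theorem pr_add_cp (X : Mat A) : pr s X + cp s X = X := by
  unfold pr cp
  rw [add_assoc, mat_add_self h2, add_zero]

include h2 hs in
theorem pr_comm (X : Mat A) : pr s X * s = s * pr s X := by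
  unfold pr
  have e1 : (X + (s * X + X * s)) * s = X * s + s * X * s + X * (s * s) := by noncomm_ring
  have e2 : s * (X + (s * X + X * s)) = s * X + (s * s) * X + s * X * s := by noncomm_ring
  rw [e1, e2, hs]
  have e3 : X * s + s * X * s + X * (s + 1) = (s * X * s + X) + (X * s + X * s) := by noncomm_ring
  have e4 : s * X + (s + 1) * X + s * X * s = (s * X * s + X) + (s * X + s * X) := by noncomm_ring
  rw [e3, e4, mat_add_self h2, mat_add_self h2]

include h2 hs in
theorem cp_comm (X : Mat A) : cp s X * s = (s + 1) * cp s X := by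
  unfold cp
  have e1 : (s * X + X * s) * s = s * X * s + X * (s * s) := by noncomm_ring
  have e2 : (s + 1) * (s * X + X * s) = (s * s) * X + s * X * s + s * X + X * s := by noncomm_ring
  rw [e1, e2, hs]
  have e4 : (s + 1) * X + s * X * s + s * X + X * s =
    (s * X * s + X * (s + 1)) + (s * X + s * X) := by noncomm_ring
  rw [e4, mat_add_self h2, add_zero]

/-- `X` commutes with `s`. -/
def IsC (s X : Mat A) : Prop := X * s = s * X

/-- `X s = s² X`. -/
def IsC' (s X : Mat A) : Prop := X * s = (s + 1) * X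

theorem IsC.add {X Y : Mat A} (hX : IsC s X) (hY : IsC s Y) : IsC s (X + Y) := by
  unfold IsC at *; rw [add_mul, mul_add, hX, hY]

theorem IsC'.add {X Y : Mat A} (hX : IsC' s X) (hY : IsC' s Y) : IsC' s (X + Y) := by
  unfold IsC' at *; rw [add_mul, mul_add, hX, hY]

theorem IsC.mul {X Y : Mat A} (hX : IsC s X) (hY : IsC s Y) : IsC s (X * Y) := by
  unfold IsC at *; rw [mul_assoc, hY, ← mul_assoc, hX, mul_assoc]

theorem IsC'.mul_right {X Y : Mat A} (hX : IsC' s X) (hY : IsC s Y) : IsC' s (X * Y) := by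
  unfold IsC IsC' at *; rw [mul_assoc, hY, ← mul_assoc, hX, mul_assoc]

theorem IsC'.mul_left {X Y : Mat A} (hX : IsC s X) (hY : IsC' s Y) : IsC' s (X * Y) := by
  unfold IsC IsC' at *
  rw [mul_assoc, hY, ← mul_assoc, mul_add, hX, mul_one]
  noncomm_ring

include h2 in
theorem IsC'.mul' {X Y : Mat A} (hX : IsC' s X) (hY : IsC' s Y) : IsC s (X * Y) := by
  unfold IsC IsC' at *
  have e1 : X * Y * s = X * s * Y + X * Y := by rw [mul_assoc, hY]; noncomm_ring
  rw [e1, hX]
  have e2 : (s + 1) * X * Y + X * Y = s * (X * Y) + (X * Y + X * Y) := by noncomm_ring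
  rw [e2, mat_add_self h2, add_zero]

theorem isC_scalar (c : A) : IsC s (c • (1 : Mat A)) := by
  unfold IsC; rw [Matrix.smul_mul, Matrix.mul_smul, one_mul, mul_one]

theorem isC_zero : IsC s (0 : Mat A) := by unfold IsC; simp

theorem isC'_zero : IsC' s (0 : Mat A) := by unfold IsC'; simp

include h2 hs in
theorem isC_pr (X : Mat A) : IsC s (pr s X) := pr_comm h2 hs X

include h2 hs in
theorem isC'_cp (X : Mat A) : IsC' s (cp s X) := cp_comm h2 hs X

include h2 in
theorem IsC.cp_eq {X : Mat A} (hX : IsC s X) : cp s X = 0 := by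
  unfold cp; rw [hX, mat_add_self h2]

include h2 in
theorem IsC.pr_eq {X : Mat A} (hX : IsC s X) : pr s X = X := by
  unfold pr; rw [hX, mat_add_self h2, add_zero]

include h2 in
theorem IsC'.cp_eq {X : Mat A} (hX : IsC' s X) : cp s X = X := by
  unfold cp; rw [hX]
  have : s * X + (s + 1) * X = X + (s * X + s * X) := by noncomm_ring
  rw [this, mat_add_self h2, add_zero]

include h2 in
theorem IsC'.pr_eq {X : Mat A} (hX : IsC' s X) : pr s X = 0 := by
  have h := pr_add_cp h2 (s := s) X
  rw [hX.cp_eq h2] at h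
  exact add_eq_right.mp h

theorem cp_add (X Y : Mat A) : cp s (X + Y) = cp s X + cp s Y := by unfold cp; noncomm_ring

theorem pr_add (X Y : Mat A) : pr s (X + Y) = pr s X + pr s Y := by unfold pr; noncomm_ring

include h2 in
theorem cp_of_add {X Y : Mat A} (hX : IsC s X) (hY : IsC' s Y) : cp s (X + Y) = Y := by
  rw [cp_add, hX.cp_eq h2, hY.cp_eq h2, zero_add]

include h2 in
theorem pr_of_add {X Y : Mat A} (hX : IsC s X) (hY : IsC' s Y) : pr s (X + Y) = X := by
  rw [pr_add, hX.pr_eq h2, hY.pr_eq h2, add_zero]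

include h2 in
theorem eq_zero_of_add {X Y : Mat A} (hX : IsC s X) (hY : IsC' s Y) (h : X + Y = 0) :
    X = 0 ∧ Y = 0 := by
  have h1 := pr_of_add h2 hX hY
  have h3 := cp_of_add h2 hX hY
  rw [h] at h1 h3
  have e1 : pr s (0 : Mat A) = 0 := by unfold pr; simp
  have e2 : cp s (0 : Mat A) = 0 := by unfold cp; simp
  exact ⟨h1.symm.trans e1, h3.symm.trans e2⟩

theorem IsC'.trace {X : Mat A} (hX : IsC' s X) : X.trace = 0 := by
  unfold IsC' at hX
  have h1 : (X * s).trace = (s * X).trace + X.trace := by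
    rw [hX, add_mul, one_mul, Matrix.trace_add]
  rw [Matrix.trace_mul_comm] at h1
  exact (left_eq_add.mp h1)

end Algebra

/-! ### Facts over `𝔽₂` -/

theorem f2_dichotomy : ∀ (s B : Mat (ZMod 2)), s * s = s + 1 → B.det = 1 →
    (B * s = s * B ∨ B * s = (s + 1) * B) := by decide

theorem f2_not_both : ∀ (s B : Mat (ZMod 2)), s * s = s + 1 → B * s = s * B →
    B * s = (s + 1) * B → B = 0 := by decide

theorem f2_C : ∀ (s Z : Mat (ZMod 2)), s * s = s + 1 → Z * s = s * Z → Z.trace = 0 →
    Z = 0 ∨ Z = 1 := by decide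

theorem f2_invol : ∀ (s R : Mat (ZMod 2)), s * s = s + 1 →
    R * s = (s + 1) * R → R.det = 1 → R * R = 1 := by decide

theorem f2_comm (s X R : Mat (ZMod 2)) (hs : s * s = s + 1) (hX : X * s = (s + 1) * X)
    (hR : R * s = (s + 1) * R) (hd : R.det = 1) (ht : (X * R).trace = 0) : X * R = R * X := by
  have hRR := f2_invol s R hs hR hd
  have h1 : (X * R) * s = s * (X * R) := IsC'.mul' (s := s) (by decide) hX hR
  have h2 : X = X * R * R := by rw [mul_assoc, hRR, mul_one]
  rcases f2_C s (X * R) hs h1 ht with h | h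
  · rw [h, zero_mul] at h2
    rw [h2, zero_mul, mul_zero]
  · rw [h, one_mul] at h2
    rw [h2]

theorem f2_fix : ∀ (s : Mat (ZMod 2)) (x : Fin 2 → ZMod 2), s * s = s + 1 →
    s.mulVec x = x → x = 0 := by decide

theorem f2_vec' : ∀ (s : Mat (ZMod 2)) (a b : ZMod 2), s * s = s + 1 →
    !![a, 0; 0, b] * s = (s + 1) * !![a, 0; 0, b] → a = 0 ∧ b = 0 := by decide

theorem f2_vec (s X : Mat (ZMod 2)) (hs : s * s = s + 1) (hX : X * s = (s + 1) * X)
    (h1 : X 0 1 = 0) (h2 : X 1 0 = 0) : X = 0 := by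
  have h3 : X = !![X 0 0, 0; 0, X 1 1] := by
    ext i j
    fin_cases i <;> fin_cases j <;> simp [h1, h2]
  rw [h3] at hX
  obtain ⟨e1, e2⟩ := f2_vec' s _ _ hs hX
  rw [h3, e1, e2]
  ext i j
  fin_cases i <;> fin_cases j <;> rfl

theorem f2_form : ∀ (s X : Mat (ZMod 2)), s * s = s + 1 → X * s = (s + 1) * X →
    X = !![X 0 1 + X 1 0, X 0 1; X 1 0, X 0 1 + X 1 0] := by decide

theorem f2_equivar' : ∀ (a b : ZMod 2) (B B' : Mat (ZMod 2)), B * B' = 1 →
    ![(B * !![a + b, a; b, a + b] * B') 0 1, (B * !![a + b, a; b, a + b] * B') 1 0] =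
      B.mulVec ![a, b] := by decide

theorem f2_equivar (s X B B' : Mat (ZMod 2)) (hs : s * s = s + 1) (hX : X * s = (s + 1) * X)
    (hB : B * B' = 1) :
    ![(B * X * B') 0 1, (B * X * B') 1 0] = B.mulVec ![X 0 1, X 1 0] := by
  conv_lhs => rw [f2_form s X hs hX]
  exact f2_equivar' _ _ B B' hB

end Fermat.Agent.P2.Dihedral
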