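import Fermat.Agent.P2.Dihedral.Cocycle

/-!
# P2, block 5a: local conditions and the abstract dihedral lemma
-/

set_option autoImplicit false

noncomputable section

namespace Fermat.Agent.P2.Dihedral

variable {A : Type*} [CommRing A] {G : Type*} [Group G]

local notation "Mat" => Matrix (Fin 2) (Fin 2)

variable {ρ : G →* GL (Fin 2) A} {r : A →+* ZMod 2} {s₀ : G}

namespace Datum

variable (D : Datum ρ r s₀) {φ : A →+ ZMod 2}
  (hφ : ∀ a : A, ∀ b ∈ Ideal.span (wset ρ r s₀), φ (a * b) = r a * φ b)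

include D in
theorem span_le_ker : Ideal.span (wset ρ r s₀) ≤ RingHom.ker r := by
  rw [Ideal.span_le]
  rintro x ⟨g, i, j, rfl⟩
  exact congrFun (congrFun (D.map_WW g) i) j

theorem mem_mul_right {𝔟 : Ideal A} {X Y : Mat A} (hX : ∀ i j, X i j ∈ 𝔟) :
    ∀ i j, (X * Y) i j ∈ 𝔟 := fun i j => by
  rw [Matrix.mul_apply]
  exact Ideal.sum_mem _ fun k _ => Ideal.mul_mem_right _ _ (hX i k)

theorem mem_mul_left {𝔟 : Ideal A} {X Y : Mat A} (hY : ∀ i j, Y i j ∈ 𝔟) :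
    ∀ i j, (X * Y) i j ∈ 𝔟 := fun i j => by
  rw [Matrix.mul_apply]
  exact Ideal.sum_mem _ fun k _ => Ideal.mul_mem_left _ _ (hY k j)

theorem sq_eq_one_zmod2 : ∀ z : ZMod 2, z ^ 2 = 1 → z = 1 := by decide

/-- Cayley–Hamilton for a `2 × 2` matrix of determinant one in characteristic two. -/
theorem mul_self_eq (h2 : (2 : A) = 0) (X : Mat A) (hX : X.det = 1) :
    X * X = X.trace • X + 1 := by
  rw [Matrix.det_fin_two] at hX
  ext i j
  fin_cases i <;> fin_cases j <;>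
    simp [Matrix.mul_apply, Fin.sum_univ_two, Matrix.trace_fin_two]
  · linear_combination (-1 : A) * hX - h2
  · ring
  · ring
  · linear_combination (-1 : A) * hX - h2

section Rel

variable {Dec : Subgroup G} {e : G → A} (he : ∀ g ∈ Dec, e g ^ 2 = 1)
  (rel : ∀ g ∈ Dec, ∀ h ∈ Dec,
    ((ρ g : Mat A) + e g • (1 : Mat A)) * ((ρ h : Mat A) + e h • (1 : Mat A)) = 0)

include D he rel in
theorem trace_eq_zero {h : G} (hh : h ∈ Dec) : (ρ h : Mat A).trace = 0 := by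
  have h1 := rel h hh h hh
  have h3 : ((ρ h : Mat A) + e h • (1 : Mat A)) * ((ρ h : Mat A) + e h • (1 : Mat A)) =
      (ρ h : Mat A) * ρ h + (e h ^ 2) • (1 : Mat A) + (e h • (ρ h : Mat A) + e h • (ρ h : Mat A)) := by
    rw [add_mul, mul_add, mul_add, Matrix.smul_mul, Matrix.mul_smul, Matrix.smul_mul,
      one_mul, mul_one, Matrix.mul_smul, mul_one, smul_smul, pow_two]
    abel
  rw [h3, mat_add_self D.h2, add_zero, he h hh, one_smul, mul_self_eq D.h2 _ (D.det h),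
    add_assoc, mat_add_self D.h2, add_zero] at h1
  have h4 : ((ρ h : Mat A).trace • (ρ h : Mat A)) * (ρ h⁻¹ : Mat A) = 0 := by rw [h1, zero_mul]
  rw [Matrix.smul_mul, ← Units.val_mul, ← map_mul, mul_inv_cancel, map_one, Units.val_one] at h4
  have h5 := congrFun (congrFun h4 0) 0
  simpa using h5

include D rel in
theorem comps {h d : G} (hh : h ∈ Dec) (hhH : InH ρ r s₀ h) (hd : d ∈ Dec)
    (hdH : ¬ InH ρ r s₀ d) :
    (RR ρ r s₀ h + e h • (1 : Mat A)) * (WW ρ r s₀ d + e d • (1 : Mat A)) +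
      WW ρ r s₀ h * RR ρ r s₀ d = 0 := by
  have h1 := rel h hh d hd
  rw [← D.RR_add_WW h, ← D.RR_add_WW d] at h1
  have h3 : (RR ρ r s₀ h + WW ρ r s₀ h + e h • (1 : Mat A)) *
      (RR ρ r s₀ d + WW ρ r s₀ d + e d • (1 : Mat A)) =
      ((RR ρ r s₀ h + e h • (1 : Mat A)) * (WW ρ r s₀ d + e d • (1 : Mat A)) +
        WW ρ r s₀ h * RR ρ r s₀ d) +
      ((RR ρ r s₀ h + e h • (1 : Mat A)) * RR ρ r s₀ d +
        WW ρ r s₀ h * (WW ρ r s₀ d + e d • (1 : Mat A))) := by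
    generalize e h • (1 : Mat A) = E
    generalize e d • (1 : Mat A) = F
    noncomm_ring
  rw [h3] at h1
  refine (eq_zero_of_add D.h2 (s := (ρ s₀ : Mat A)) ?_ ?_ h1).1
  · exact (IsC.mul ((D.isC_RR hhH).add (isC_scalar _)) ((D.isC_WW hdH).add (isC_scalar _))).add
      (IsC'.mul' D.h2 (D.isC'_WW hhH) (D.isC'_RR hdH))
  · exact (IsC'.mul_left ((D.isC_RR hhH).add (isC_scalar _)) (D.isC'_RR hdH)).add
      (IsC'.mul_right (D.isC'_WW hhH) ((D.isC_WW hdH).add (isC_scalar _)))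

include D he rel in
theorem aa_eq {h d : G} (hh : h ∈ Dec) (hhH : InH ρ r s₀ h) (hd : d ∈ Dec)
    (hdH : ¬ InH ρ r s₀ d) :
    RR ρ r s₀ h + e h • (1 : Mat A) =
      e d • ((RR ρ r s₀ h + e h • (1 : Mat A)) * WW ρ r s₀ d + WW ρ r s₀ h * RR ρ r s₀ d) := by
  have h1 := D.comps rel hh hhH hd hdH
  set a := RR ρ r s₀ h + e h • (1 : Mat A) with ha
  rw [mul_add, Matrix.mul_smul, mul_one] at h1
  have h3 : e d • a = a * WW ρ r s₀ d + WW ρ r s₀ h * RR ρ r s₀ d := by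
    have h4 : e d • a = -(a * WW ρ r s₀ d + WW ρ r s₀ h * RR ρ r s₀ d) := by
      rw [eq_neg_iff_add_eq_zero, ← h1]; abel
    rw [h4, mat_neg D.h2]
  rw [← h3, smul_smul, ← pow_two, he d hd, one_smul]

include D he rel in
theorem aa_mem {h d : G} (hh : h ∈ Dec) (hhH : InH ρ r s₀ h) (hd : d ∈ Dec)
    (hdH : ¬ InH ρ r s₀ d) (i j : Fin 2) :
    (RR ρ r s₀ h + e h • (1 : Mat A)) i j ∈ Ideal.span (wset ρ r s₀) := by
  rw [D.aa_eq he rel hh hhH hd hdH, Matrix.smul_apply, smul_eq_mul, Matrix.add_apply]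
  exact Ideal.mul_mem_left _ _ (Ideal.add_mem _ (mem_mul_left (WW_mem d) i j)
    (mem_mul_right (WW_mem h) i j))

include he in
theorem r_e {g : G} (hg : g ∈ Dec) : r (e g) = 1 := by
  refine sq_eq_one_zmod2 _ ?_
  rw [← map_pow, he g hg, map_one]

include D he rel in
theorem res_eq_one {h d : G} (hh : h ∈ Dec) (hhH : InH ρ r s₀ h) (hd : d ∈ Dec)
    (hdH : ¬ InH ρ r s₀ d) : res ρ r h = 1 := by
  have h1 : (RR ρ r s₀ h + e h • (1 : Mat A)).map r = 0 := by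
    ext i j
    exact D.span_le_ker (D.aa_mem he rel hh hhH hd hdH i j)
  have h3 : (e h • (1 : Mat A)).map r = 1 := by
    ext i j
    rw [Matrix.map_apply, Matrix.smul_apply, smul_eq_mul, map_mul, r_e he hh, one_mul,
      Matrix.one_apply, Matrix.one_apply]
    split_ifs <;> simp
  rw [Matrix.map_add _ (map_add r), D.map_RR, h3] at h1
  rw [eq_neg_of_add_eq_zero_left h1]
  decide

include hφ in
omit D in
theorem map_smul_mem {X : Mat A} (hX : ∀ i j, X i j ∈ Ideal.span (wset ρ r s₀)) {c : A}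
    (hc : r c = 1) : (c • X).map φ = X.map φ := by
  ext i j
  rw [Matrix.map_apply, Matrix.smul_apply, smul_eq_mul, hφ _ _ (hX i j), hc, one_mul]; rfl

include D hφ he rel in
theorem map_aa {h d : G} (hh : h ∈ Dec) (hhH : InH ρ r s₀ h) (hd : d ∈ Dec)
    (hdH : ¬ InH ρ r s₀ d) :
    (RR ρ r s₀ h + e h • (1 : Mat A)).map φ = (WW ρ r s₀ h).map φ * res ρ r d := by
  have hm := D.aa_mem he rel hh hhH hd hdH
  conv_lhs => rw [D.aa_eq he rel hh hhH hd hdH]
  rw [map_smul_mem hφ _ (r_e he hd), Matrix.map_add _ (map_add φ),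
    map_mul_right' hφ _ _ hm, map_mul_right' hφ _ _ (WW_mem h), D.map_WW, D.map_RR, mul_zero,
    zero_add]
  intro i j
  rw [Matrix.add_apply]
  exact Ideal.add_mem _ (mem_mul_left (WW_mem d) i j) (mem_mul_right (WW_mem h) i j)

include D hφ he rel in
theorem comm_H {h d : G} (hh : h ∈ Dec) (hhH : InH ρ r s₀ h) (hd : d ∈ Dec)
    (hdH : ¬ InH ρ r s₀ d) :
    res ρ r d * xi ρ r s₀ φ h = xi ρ r s₀ φ h * res ρ r d := by
  have h1 : xi ρ r s₀ φ h = (WW ρ r s₀ h).map φ := by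
    have := xi_mul_res (ρ := ρ) (r := r) (s₀ := s₀) (φ := φ) h
    rwa [D.res_eq_one he rel hh hhH hd hdH, mul_one] at this
  have h3 : ((RR ρ r s₀ h + e h • (1 : Mat A)).map φ).trace = 0 := by
    have h4 : (RR ρ r s₀ h + e h • (1 : Mat A)).trace = 0 := by
      have h5 := D.trace_eq_zero he rel hh
      rw [← D.RR_add_WW h, Matrix.trace_add, (D.isC'_WW hhH).trace, add_zero] at h5
      rw [Matrix.trace_add, h5, zero_add, Matrix.trace_smul, Matrix.trace_one, Fintype.card_fin,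
        smul_eq_mul, Nat.cast_ofNat, D.h2, mul_zero]
    have h6 : ((RR ρ r s₀ h + e h • (1 : Mat A)).map φ).trace =
        φ (RR ρ r s₀ h + e h • (1 : Mat A)).trace := by
      rw [Matrix.trace_fin_two, Matrix.trace_fin_two, map_add]; rfl
    rw [h6, h4, map_zero]
  rw [D.map_aa hφ he rel hh hhH hd hdH] at h3
  rw [h1]
  exact (f2_comm _ _ _ D.res_s
    (D.map_comm' (D.isC'_WW hhH) fun a i j => hφ a _ (WW_mem h i j))
    (D.isC'_of_not hdH) (D.res_det d) h3).symm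

include D he rel in
theorem res_eq_of_not {d d' : G} (hd : d ∈ Dec) (hdH : ¬ InH ρ r s₀ d) (hd' : d' ∈ Dec)
    (hdH' : ¬ InH ρ r s₀ d') : res ρ r d' = res ρ r d := by
  have h0 : ¬ InH ρ r s₀ d⁻¹ := fun h => by
    have h1 : InH ρ r s₀ (d⁻¹ * d) := by
      rw [inv_mul_cancel]
      show IsC _ _
      rw [res_one]
      unfold IsC
      rw [one_mul, mul_one]
    exact hdH (((D.inH_mul_iff _ _).mp h1).mp h)
  have h1 : InH ρ r s₀ (d' * d⁻¹) := (D.inH_mul_iff _ _).mpr (by simp [hdH', h0])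
  have h3 := D.res_eq_one he rel (Dec.mul_mem hd' (Dec.inv_mem hd)) h1 hd hdH
  rw [res_mul] at h3
  calc res ρ r d' = res ρ r d' * res ρ r d⁻¹ * res ρ r d := by
        rw [mul_assoc, res_inv_mul, mul_one]
    _ = _ := by rw [h3, one_mul]

include D hφ rel in
theorem comm_self {d : G} (hd : d ∈ Dec) (hdH : ¬ InH ρ r s₀ d) :
    res ρ r d * xi ρ r s₀ φ d = xi ρ r s₀ φ d * res ρ r d := by
  have h1 := rel d hd d hd
  rw [← D.RR_add_WW d] at h1
  have h3 : (RR ρ r s₀ d + WW ρ r s₀ d + e d • (1 : Mat A)) *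
      (RR ρ r s₀ d + WW ρ r s₀ d + e d • (1 : Mat A)) =
      (RR ρ r s₀ d * RR ρ r s₀ d +
        (WW ρ r s₀ d + e d • (1 : Mat A)) * (WW ρ r s₀ d + e d • (1 : Mat A))) +
      (RR ρ r s₀ d * (WW ρ r s₀ d + e d • (1 : Mat A)) +
        (WW ρ r s₀ d + e d • (1 : Mat A)) * RR ρ r s₀ d) := by
    generalize e d • (1 : Mat A) = F
    noncomm_ring
  rw [h3] at h1
  have h4 := (eq_zero_of_add D.h2 (s := (ρ s₀ : Mat A))
    ((IsC'.mul' D.h2 (D.isC'_RR hdH) (D.isC'_RR hdH)).add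
      (((D.isC_WW hdH).add (isC_scalar _)).mul ((D.isC_WW hdH).add (isC_scalar _))))
    ((IsC'.mul_right (D.isC'_RR hdH) ((D.isC_WW hdH).add (isC_scalar _))).add
      (IsC'.mul_left ((D.isC_WW hdH).add (isC_scalar _)) (D.isC'_RR hdH))) h1).2
  have h5 : RR ρ r s₀ d * WW ρ r s₀ d + WW ρ r s₀ d * RR ρ r s₀ d = 0 := by
    rw [mul_add, add_mul, Matrix.mul_smul, Matrix.smul_mul, one_mul, mul_one] at h4
    have h6 : RR ρ r s₀ d * WW ρ r s₀ d + e d • RR ρ r s₀ d +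
        (WW ρ r s₀ d * RR ρ r s₀ d + e d • RR ρ r s₀ d) =
        (RR ρ r s₀ d * WW ρ r s₀ d + WW ρ r s₀ d * RR ρ r s₀ d) +
        (e d • RR ρ r s₀ d + e d • RR ρ r s₀ d) := by abel
    rwa [h6, mat_add_self D.h2, add_zero] at h4
  have h7 := congrArg (fun X : Mat A => X.map φ) h5
  simp only [Matrix.map_add _ (map_add φ), Matrix.map_zero _ (map_zero φ)] at h7
  rw [map_mul_left' hφ _ _ (WW_mem d), map_mul_right' hφ _ _ (WW_mem d), D.map_RR] at h7
  have h8 : res ρ r d * (WW ρ r s₀ d).map φ = (WW ρ r s₀ d).map φ * res ρ r d := by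
    rw [eq_neg_of_add_eq_zero_left h7, mat_neg (by decide)]
  unfold xi
  rw [← mul_assoc, h8, mul_assoc, mul_assoc, res_mul_inv, res_inv_mul]

include D hφ he rel in
theorem comm_all {d : G} (hd : d ∈ Dec) (hdH : ¬ InH ρ r s₀ d) {g h : G} (hg : g ∈ Dec)
    (hh : h ∈ Dec) : res ρ r h * xi ρ r s₀ φ g = xi ρ r s₀ φ g * res ρ r h := by
  by_cases hhH : InH ρ r s₀ h
  · rw [D.res_eq_one he rel hh hhH hd hdH, one_mul, mul_one]
  · by_cases hgH : InH ρ r s₀ g
    · exact D.comm_H hφ he rel hg hgH hh hhH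
    · rw [D.res_eq_of_not he rel hg hgH hh hhH]
      exact D.comm_self hφ rel hg hgH

include D hφ he rel in
theorem vv_fixed {d : G} (hd : d ∈ Dec) (hdH : ¬ InH ρ r s₀ d) {g h : G} (hg : g ∈ Dec)
    (hh : h ∈ Dec) : (res ρ r h).mulVec (vv ρ r s₀ φ g) = vv ρ r s₀ φ g := by
  have h1 := f2_equivar _ _ _ _ D.res_s (D.isC'_xi hφ g) (res_mul_inv (ρ := ρ) (r := r) h)
  rw [D.comm_all hφ he rel hd hdH hg hh, mul_assoc, res_mul_inv, mul_one] at h1
  exact h1.symm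

include D he rel in
theorem eq_scalar (hW : ∀ g, WW ρ r s₀ g = 0) {h d : G} (hh : h ∈ Dec)
    (hhH : InH ρ r s₀ h) (hd : d ∈ Dec) (hdH : ¬ InH ρ r s₀ d) :
    (ρ h : Mat A) = e h • (1 : Mat A) := by
  have h1 := D.aa_eq he rel hh hhH hd hdH
  rw [hW, hW, mul_zero, zero_mul, add_zero, smul_zero] at h1
  rw [← D.RR_add_WW h, hW, add_zero, eq_neg_of_add_eq_zero_left h1, mat_neg D.h2]

end Rel

/-- **The abstract dihedral lemma.** If every cocycle with the properties of `vv` is a coboundary,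
then all wrong components vanish. -/
theorem WW_eq_zero (D : Datum ρ r s₀)
    (hsel : ∀ v : G → (Fin 2 → ZMod 2), (∀ g h, v (g * h) = v g + (res ρ r g).mulVec (v h)) →
      (∀ g h, ρ g = ρ h → v g = v h) → (∀ g, ρ g = 1 → v g = 0) →
      (∀ (Dec : Subgroup G) (e : G → A), (∀ g ∈ Dec, e g ^ 2 = 1) →
        (∀ g ∈ Dec, ∀ h ∈ Dec,
          ((ρ g : Mat A) + e g • (1 : Mat A)) * ((ρ h : Mat A) + e h • (1 : Mat A)) = 0) →
        (∃ d ∈ Dec, ¬ InH ρ r s₀ d) → ∀ g ∈ Dec, ∀ h ∈ Dec, (res ρ r h).mulVec (v g) = v g) →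
      ∃ x : Fin 2 → ZMod 2, ∀ g, v g = (res ρ r g).mulVec x - x) (g : G) :
    WW ρ r s₀ g = 0 := by
  by_contra hg
  have hX : ∃ x ∈ wset ρ r s₀, x ≠ 0 := by
    by_contra hcon
    push Not at hcon
    exact hg (Matrix.ext fun i j => hcon _ ⟨g, i, j, rfl⟩)
  obtain ⟨φ, hφ, x, ⟨g', i, j, rfl⟩, hx⟩ := exists_functional D.h2 r D.nil _ hX
  refine hx ?_
  have hcob := hsel (vv ρ r s₀ φ) (fun g h => D.vv_mul hφ g h)
    (fun g h hgh => vv_congr hgh)
    (fun g hg => by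
      have h1 : WW ρ r s₀ (1 : G) = 0 := by
        have h0 : InH ρ r s₀ (1 : G) := by
          show IsC _ _
          rw [res_one]
          unfold IsC
          rw [one_mul, mul_one]
        rw [WW, if_pos h0, map_one, Units.val_one]
        refine IsC.cp_eq D.h2 ?_
        unfold IsC
        rw [one_mul, mul_one]
      rw [vv_congr (ρ := ρ) (h := (1 : G)) (by rw [hg, map_one])]
      exact vv_eq_zero h1)
    (fun Dec e he rel ⟨d, hd, hdH⟩ g hg h hh => D.vv_fixed hφ he rel hd hdH hg hh)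
  exact congrFun (congrFun (WW_eq_zero_of_cob hcob D hφ g') i) j

end Datum

end Fermat.Agent.P2.Dihedral
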