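import Fermat.Agent.P2.Dihedral.Local
import Fermat.Agent.P2.Defs

/-!
# P2, block 5a: the dihedral lemma
-/

set_option autoImplicit false

noncomputable section

namespace Fermat.Agent.P2.Dihedral

open Sel

local notation "Mat" => Matrix (Fin 2) (Fin 2)

section Algebra

variable {A : Type*} [CommRing A]

theorem trace_mul_self (h2 : (2 : A) = 0) (X : Mat A) (hX : X.det = 1) :
    (X * X).trace = X.trace ^ 2 := by
  rw [Datum.mul_self_eq h2 X hX, Matrix.trace_add, Matrix.trace_smul, Matrix.trace_one,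
    Fintype.card_fin, smul_eq_mul, Nat.cast_ofNat, h2, add_zero, pow_two]

theorem exists_pow {G : Type*} [Group G] (h2 : (2 : A) = 0) (r : A →+* ZMod 2)
    (hn : ∃ n : ℕ, RingHom.ker r ^ n = ⊥) (ρ : G →* GL (Fin 2) A)
    (hdet : ∀ g, (ρ g : Mat A).det = 1) {g : G} (hg : r (ρ g : Mat A).trace = 1) :
    ∃ s₀ : G, (ρ s₀ : Mat A) * ρ s₀ = ρ s₀ + 1 := by
  obtain ⟨n, hn⟩ := hn
  have h1 : ∀ k : ℕ, (ρ (g ^ 2 ^ k) : Mat A).trace = (ρ g : Mat A).trace ^ 2 ^ k := by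
    intro k
    induction k with
    | zero => simp
    | succ k ih =>
      have e1 : g ^ 2 ^ (k + 1) = g ^ 2 ^ k * g ^ 2 ^ k := by
        rw [← pow_add, pow_succ]; congr 1; omega
      rw [e1, map_mul, Units.val_mul, trace_mul_self h2 _ (hdet _), ih, ← pow_mul, ← pow_succ]
  have : CharP A 2 ∨ Subsingleton A := by
    by_cases h : (1 : A) = 0
    · exact Or.inr (subsingleton_of_zero_eq_one h.symm)
    · left
      have : Nontrivial A := ⟨1, 0, h⟩
      exact CharTwo.of_one_ne_zero_of_two_eq_zero h h2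
  rcases this with hc | hs
  · refine ⟨g ^ 2 ^ n, ?_⟩
    rw [Datum.mul_self_eq h2 _ (hdet _), h1]
    have h3 : (ρ g : Mat A).trace - 1 ∈ RingHom.ker r := by
      rw [RingHom.mem_ker, map_sub, hg, map_one, sub_self]
    have h4 : ((ρ g : Mat A).trace - 1) ^ 2 ^ n = 0 := by
      have h5 : ((ρ g : Mat A).trace - 1) ^ n ∈ RingHom.ker r ^ n := Ideal.pow_mem_pow h3 n
      rw [hn, Ideal.mem_bot] at h5
      obtain ⟨k, hk⟩ := Nat.exists_eq_add_of_lt (Nat.lt_two_pow_self (n := n))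
      rw [hk, pow_add, pow_add, h5, zero_mul, zero_mul]
    have h5 : (ρ g : Mat A).trace ^ 2 ^ n = 1 := by
      have h6 := sub_pow_char_pow (R := A) (p := 2) (n := n) (x := (ρ g : Mat A).trace) (y := 1)
      rw [h4, one_pow] at h6
      exact (sub_eq_zero.mp h6.symm)
    rw [h5, one_smul]
  · exact ⟨1, Subsingleton.elim _ _⟩

theorem comm_of_comm {s X Y : Mat A} (hu : IsUnit (s 0 1)) (hX : X * s = s * X)
    (hY : Y * s = s * Y) : X * Y = Y * X := by
  have key : ∀ Z : Mat A, Z * s = s * Z → ∃ x y : A, Z = x • (1 : Mat A) + y • s := by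
    intro Z hZ
    obtain ⟨u, hu⟩ := hu
    have e00 := congrFun (congrFun hZ 0) 0
    have e01 := congrFun (congrFun hZ 0) 1
    simp only [Matrix.mul_apply, Fin.sum_univ_two] at e00 e01
    refine ⟨Z 0 0 - Z 0 1 * ↑u⁻¹ * s 0 0, Z 0 1 * ↑u⁻¹, ?_⟩
    have hv : (↑u⁻¹ : A) * s 0 1 = 1 := by rw [← hu, Units.inv_mul]
    generalize (↑u⁻¹ : A) = v at hv ⊢
    ext i j
    fin_cases i <;> fin_cases j <;> simp
    · linear_combination (-Z 0 1) * hv
    · linear_combination (-Z 1 0) * hv - v * e00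
    · linear_combination (Z 0 0 - Z 1 1) * hv - v * e01
  obtain ⟨x, y, rfl⟩ := key X hX
  obtain ⟨x', y', rfl⟩ := key Y hY
  simp only [add_mul, mul_add, Matrix.smul_mul, Matrix.mul_smul, one_mul, mul_one]
  simp only [smul_smul, mul_comm x' , mul_comm y']
  abel

end Algebra

theorem f2_H : ∀ (s B : Mat (ZMod 2)), s * s = s + 1 → B.det = 1 →
    (B * s = s * B ↔ (B = 1 ∨ B.trace = 1)) := by decide

theorem f2_01 : ∀ s : Mat (ZMod 2), s * s = s + 1 → s 0 1 = 1 := by decide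

/-- the hypotheses of the dihedral lemma -/
structure Input {B : Type*} [CommRing B] (S Q : Finset ℕ) (r : B →+* ZMod 2)
    (ρ : GQ →* Mat B) (ρbar : GQ →* Mat (ZMod 2)) : Prop where
  two : (2 : B) = 0
  nil : ∃ n : ℕ, RingHom.ker r ^ n = ⊥
  red : ∀ g, (ρ g).map r = ρbar g
  det : ∀ g, (ρ g).det = 1
  lev : ∃ L : IntermediateField ℚ (AlgebraicClosure ℚ), FiniteDimensional ℚ L ∧
    ∀ h : GQ, (∀ x ∈ L, h x = x) → ρ h = 1
  three : ∃ s, (ρbar s).trace = 1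
  unr : ∀ ℓ : ℕ, ℓ.Prime → ℓ ∉ S → ℓ ∉ Q → ∀ P : ValuationSubring (AlgebraicClosure ℚ),
    P.LiesOverPrime ℓ → ∀ g ∈ P.inertiaSubgroupIn ℚ, ρ g = 1
  st : ∀ q : ℕ, q ∈ S ∨ q ∈ Q → ∀ P : ValuationSubring (AlgebraicClosure ℚ),
    P.LiesOverPrime q → ∃ e : B, e ^ 2 = 1 ∧ StRel P q e (fun _ => 1) ρ
  trans : ∀ q : ℕ, q ∈ S ∨ q ∈ Q → ∀ P : ValuationSubring (AlgebraicClosure ℚ),
    P.LiesOverPrime q → ∃ g ∈ P.decompositionSubgroup ℚ, ¬ (ρbar g = 1 ∨ (ρbar g).trace = 1)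
  sel : ∀ ρb : Representation (ZMod 2) GQ (Fin 2 → ZMod 2),
    (∀ g x, ρb g x = (ρbar g).mulVec x) →
      ∀ ξ ∈ Selmer ρb S Q, ∃ x : Fin 2 → ZMod 2, ξ = cob ρb x

namespace Input

variable {B : Type*} [CommRing B] {S Q : Finset ℕ} {r : B →+* ZMod 2} {ρ : GQ →* Mat B}
  {ρbar : GQ →* Mat (ZMod 2)} (I : Input S Q r ρ ρbar)

/-- the residual representation -/
def rb (ρbar : GQ →* Mat (ZMod 2)) : Representation (ZMod 2) GQ (Fin 2 → ZMod 2) :=
  (Matrix.toLinAlgEquiv' : Mat (ZMod 2) ≃ₐ[ZMod 2] _).toMonoidHom.comp ρbar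

theorem rb_apply (g : GQ) (x : Fin 2 → ZMod 2) : rb ρbar g x = (ρbar g).mulVec x := rfl

theorem unit_val (ρ : GQ →* Mat B) (g : GQ) : ((ρ.toHomUnits : GQ →* GL (Fin 2) B) g : Mat B) = ρ g :=
  rfl

include I in
theorem exists_datum : ∃ s₀ : GQ, Datum (ρ.toHomUnits : GQ →* GL (Fin 2) B) r s₀ := by
  obtain ⟨g, hg⟩ := I.three
  have h1 : r ((ρ.toHomUnits : GQ →* GL (Fin 2) B) g : Mat B).trace = 1 := by
    rw [unit_val, ← hg, ← I.red g, Matrix.trace_fin_two, Matrix.trace_fin_two, map_add]; rfl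
  obtain ⟨s₀, hs₀⟩ := exists_pow I.two r I.nil (ρ.toHomUnits : GQ →* GL (Fin 2) B)
    (fun g => I.det g) h1
  exact ⟨s₀, I.two, I.nil, fun g => I.det g, hs₀⟩

include I in
theorem res_eq (g : GQ) : res (ρ.toHomUnits : GQ →* GL (Fin 2) B) r g = ρbar g := I.red g

variable {s₀ : GQ} (D : Datum (ρ.toHomUnits : GQ →* GL (Fin 2) B) r s₀)

include I D in
theorem inH_iff (g : GQ) : InH (ρ.toHomUnits : GQ →* GL (Fin 2) B) r s₀ g ↔
    (ρbar g = 1 ∨ (ρbar g).trace = 1) := by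
  have h1 := f2_H _ _ D.res_s (D.res_det g)
  rw [I.res_eq g] at h1
  unfold InH IsC
  rw [I.res_eq g]
  exact h1

include I in
theorem rel {q : ℕ} {P : ValuationSubring (AlgebraicClosure ℚ)} {e : B}
    (h : StRel P q e (fun _ => 1) ρ) :
    ∀ g ∈ P.decompositionSubgroup ℚ, ∀ h ∈ P.decompositionSubgroup ℚ,
      (((ρ.toHomUnits : GQ →* GL (Fin 2) B) g : Mat B) + eta P q e g • (1 : Mat B)) *
      (((ρ.toHomUnits : GQ →* GL (Fin 2) B) h : Mat B) + eta P q e h • (1 : Mat B)) = 0 := by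
  intro g hg k hk
  have h1 := h g hg k hk
  rw [mul_one, mat_sub I.two, mat_sub I.two, Algebra.algebraMap_eq_smul_one,
    Algebra.algebraMap_eq_smul_one] at h1
  exact h1

theorem eta_sq (P : ValuationSubring (AlgebraicClosure ℚ)) (q : ℕ) {e : B} (he : e ^ 2 = 1)
    (g : GQ) : eta P q e g ^ 2 = 1 := by
  unfold eta
  split_ifs
  · exact he
  · exact one_pow 2

include I D in
theorem WW_eq (g : GQ) : WW (ρ.toHomUnits : GQ →* GL (Fin 2) B) r s₀ g = 0 := by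
  refine Datum.WW_eq_zero D ?_ g
  intro v hv hcongr hone hloc
  have hmem : v ∈ Selmer (rb ρbar) S Q := by
    refine mem_SelOn.mpr ⟨fun g h => ?_, ?_, fun ℓ hℓ _ hS hQ P hP g hg => ?_,
      fun ℓ _ hS P hP => ?_⟩
    · rw [hv, I.res_eq, rb_apply]
    · obtain ⟨L, hL, h⟩ := I.lev
      refine ⟨L, hL, fun g h' hh' => hcongr _ _ ?_⟩
      apply Units.ext
      rw [unit_val, unit_val, map_mul, h h' hh', mul_one]
    · refine hone _ ?_
      apply Units.ext
      rw [unit_val, I.unr ℓ hℓ hS hQ P hP g hg]; rfl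
    · obtain ⟨e, he, hst⟩ := I.st ℓ hS P hP
      obtain ⟨d, hd, hdH⟩ := I.trans ℓ hS P hP
      have h1 := hloc (P.decompositionSubgroup ℚ) (fun g => eta P ℓ e g)
        (fun g _ => eta_sq P ℓ he g) (I.rel hst) ⟨d, hd, fun h => hdH ((I.inH_iff D d).mp h)⟩
      refine ⟨0, fun g hg h hh => ?_⟩
      rw [map_zero, sub_zero, sub_zero, rb_apply, ← I.res_eq]
      exact h1 g hg h hh
  obtain ⟨x, hx⟩ := I.sel (rb ρbar) (fun g x => rb_apply g x) v hmem
  refine ⟨x, fun g => ?_⟩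
  rw [hx, cob_apply, rb_apply, I.res_eq]

include I D in
theorem isC_of_mem {g : GQ} (hg : ρbar g = 1 ∨ (ρbar g).trace = 1) : IsC (ρ s₀) (ρ g) := by
  have h1 := D.isC_RR ((I.inH_iff D g).mpr hg)
  have h2 := D.RR_add_WW g
  rw [I.WW_eq D g, add_zero] at h2
  rw [h2] at h1
  exact h1

include I D in
theorem isC'_of_not_mem {g : GQ} (hg : ¬ (ρbar g = 1 ∨ (ρbar g).trace = 1)) :
    IsC' (ρ s₀) (ρ g) := by
  have h1 := D.isC'_RR (g := g) fun h => hg ((I.inH_iff D g).mp h)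
  have h2 := D.RR_add_WW g
  rw [I.WW_eq D g, add_zero] at h2
  rw [h2] at h1
  exact h1

include I in
/-- **Dihedral lemma (1)**: the restriction of `ρ` to the subgroup of index two is abelian. -/
theorem comm {g h : GQ} (hg : ρbar g = 1 ∨ (ρbar g).trace = 1)
    (hh : ρbar h = 1 ∨ (ρbar h).trace = 1) (hr : ∀ x : B, r x = 1 → IsUnit x) :
    ρ g * ρ h = ρ h * ρ g := by
  obtain ⟨s₀, D⟩ := I.exists_datum
  refine comm_of_comm (s := ρ s₀) (hr _ ?_) (I.isC_of_mem D hg) (I.isC_of_mem D hh)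
  have h1 := f2_01 _ D.res_s
  exact h1

include I in
/-- **Dihedral lemma (2)**: elements outside the subgroup of index two have trace zero. -/
theorem trace_eq_zero {g : GQ} (hg : ¬ (ρbar g = 1 ∨ (ρbar g).trace = 1)) :
    (ρ g).trace = 0 := by
  obtain ⟨s₀, D⟩ := I.exists_datum
  exact (I.isC'_of_not_mem D hg).trace

include I in
/-- **Dihedral lemma (3)**: the decomposition groups at `S ∪ Q` act on `H` by scalars. -/
theorem eq_scalar {q : ℕ} (hq : q ∈ S ∨ q ∈ Q) {P : ValuationSubring (AlgebraicClosure ℚ)}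
    (hP : P.LiesOverPrime q) {e : B} (he : e ^ 2 = 1) (hst : StRel P q e (fun _ => 1) ρ)
    {h : GQ} (hh : h ∈ P.decompositionSubgroup ℚ) (hhH : ρbar h = 1 ∨ (ρbar h).trace = 1) :
    ρ h = eta P q e h • (1 : Mat B) := by
  obtain ⟨s₀, D⟩ := I.exists_datum
  obtain ⟨d, hd, hdH⟩ := I.trans q hq P hP
  exact D.eq_scalar (Dec := P.decompositionSubgroup ℚ) (fun g _ => eta_sq P q he g) (I.rel hst)
    (I.WW_eq D) hh ((I.inH_iff D h).mpr hhH) hd fun h => hdH ((I.inH_iff D d).mp h)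

end Input

/-- nilpotency of the kernel for finite local rings -/
theorem nil_of_finite {B : Type*} [CommRing B] [Finite B] (r : B →+* ZMod 2)
    (hr : ∀ x, IsUnit x ↔ r x = 1) : ∃ n : ℕ, RingHom.ker r ^ n = ⊥ := by
  have : IsArtinianRing B := inferInstance
  obtain ⟨n, hn⟩ := IsArtinianRing.isNilpotent_jacobson_bot (R := B)
  refine ⟨n, ?_⟩
  have h1 : RingHom.ker r ≤ Ideal.jacobson ⊥ := by
    intro x hx
    rw [Ideal.mem_jacobson_bot]
    intro y
    rw [hr, map_add, map_mul, (RingHom.mem_ker).mp hx, zero_mul, zero_add, map_one]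
  have h2 := Ideal.pow_right_mono h1 n
  rw [eq_bot_iff]
  refine h2.trans ?_
  rw [hn]; exact le_rfl

end Fermat.Agent.P2.Dihedral
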